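import Fermat.Agent.R59.Lower.Descent
import Fermat.Agent.Carayol.Degen

/-!
# The key theorem at `X₀(qⁿ L)` in the terms of `CarayolHigh`
-/

set_option autoImplicit false
set_option linter.style.haveILetI false

noncomputable section

open ModularCurve

namespace Fermat.Agent.R59.Lower

local notation "Ω" => AlgebraicClosure ℚ

/-- The key theorem of `CarayolHigh`. -/
def StmtKeyHighRaw : Prop :=
  ∀ (q L n : ℕ) [NeZero q] [NeZero (L * q ^ n)] [NeZero (L * q ^ (n - 1))], q.Prime → ¬ q ∣ L →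
    (q ≠ 2 → 4 ∣ L) → (q = 2 → 9 ∣ L) → 3 ≤ n →
    ∀ (h1 : L * q ^ (n - 1) * 1 ∣ L * q ^ n) (h2 : L * q ^ (n - 1) * q ∣ L * q ^ n)
      (m : ℕ), 0 < m → ¬ q ∣ m → ∀ P : JZero (L * q ^ n), m • P = 0 →
    ∀ A : ValuationSubring Ω, A.LiesOverPrime q → (∀ σ ∈ A.inertiaSubgroupIn ℚ, σ • P = P) →
    Carayol.pushJ 1 h1 P = 0 → Carayol.pushJ q h2 P = 0 → P = 0

theorem keyHigh_raw_congr (hkey : StmtKeyHighRaw) {q L n M M' : ℕ} [NeZero q] [NeZero M]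
    [NeZero M'] (hM : M = L * q ^ (n - 1)) (hM' : M' = L * q ^ n) (hq : q.Prime) (hqL : ¬ q ∣ L)
    (h4 : q ≠ 2 → 4 ∣ L) (h9 : q = 2 → 9 ∣ L) (hn : 3 ≤ n) (h1 : M * 1 ∣ M') (h2 : M * q ∣ M')
    {m : ℕ} (hm : 0 < m) (hqm : ¬ q ∣ m) (P : JZero M') (hP : m • P = 0)
    {A : ValuationSubring Ω} (hA : A.LiesOverPrime q)
    (hfix : ∀ σ ∈ A.inertiaSubgroupIn ℚ, σ • P = P)
    (ha : Carayol.pushJ 1 h1 P = 0) (hb : Carayol.pushJ q h2 P = 0) : P = 0 := by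
  subst hM hM'
  exact hkey q L n hq hqL h4 h9 hn h1 h2 m hm hqm P hP A hA hfix ha hb

theorem stmtKeyHigh_of_raw (hkey : StmtKeyHighRaw) : StmtKeyHigh := by
  intro q _ hq N _ h2 h9 h4 m hm hqm P hP A hA hfix ha hb
  obtain ⟨k, L, hqL, rfl⟩ := Nat.exists_eq_pow_mul_and_not_dvd (NeZero.ne N) q hq.ne_one
  have hk : 2 ≤ k := by
    by_contra hlt
    interval_cases k
    · rw [pow_zero, one_mul] at h2
      exact hqL ((dvd_pow_self q two_ne_zero).trans h2)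
    · rw [pow_one, sq] at h2
      exact hqL (Nat.dvd_of_mul_dvd_mul_left hq.pos h2)
  have hco : ∀ r j : ℕ, r.Prime → r ≠ q → Nat.Coprime (r ^ j) (q ^ k) := fun r j hr hrq =>
    Nat.Coprime.pow j k ((Nat.coprime_primes hr hq).mpr hrq)
  refine keyHigh_raw_congr hkey (L := L) (n := k + 1) (by rw [Nat.add_sub_cancel, mul_comm])
    (by ring) hq hqL (fun h => ?_) (fun h => ?_) (by omega) (mul_dvd_mul_left _ (one_dvd q))
    dvd_rfl hm hqm P hP hA hfix ha hb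
  · exact (hco 2 2 Nat.prime_two (Ne.symm h)).dvd_of_dvd_mul_left (h4 h)
  · exact (hco 3 2 Nat.prime_three (by omega)).dvd_of_dvd_mul_left (h9 h)

end Fermat.Agent.R59.Lower
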