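import Fermat.Agent.FF.PushPull
import Fermat.Agent.JPairing.Weil
import Mathlib.RingTheory.Trace.Basic

/-!
# The kernel of pullback on `p`-torsion divisor classes along a map of degree `p`

It is cyclic: if two classes die upstairs, the functions witnessing it are related by Kummer theory.
-/

set_option autoImplicit false
set_option linter.style.haveILetI false

noncomputable section

open AlgebraicCurve Polynomial

namespace Fermat.Agent.R59.Lower

section Kummer

variable {F F' : Type*} [Field F] [Field F'] [Algebra F F'] [FiniteDimensional F F']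

theorem trace_eq_zero_of_pow_mem {p : ℕ} (hp : p.Prime) (hrank : Module.finrank F F' = p) {y : F'}
    (hy : y ∉ (algebraMap F F').range) (hyp : y ^ p ∈ (algebraMap F F').range) :
    Algebra.trace F F' y = 0 := by
  obtain ⟨b, hb⟩ := hyp
  have hint : IsIntegral F y := IsIntegral.of_finite F y
  have hdeg : (minpoly F y).natDegree = p := by
    have h := minpoly.degree_dvd hint
    rw [hrank] at h
    refine (hp.eq_one_or_self_of_dvd _ h).resolve_left fun h1 => hy ?_
    exact minpoly.natDegree_eq_one_iff.mp h1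
  have heq : minpoly F y = X ^ p - C b := by
    refine (Polynomial.eq_of_monic_of_dvd_of_natDegree_le (minpoly.monic hint)
      (monic_X_pow_sub_C b hp.ne_zero) (minpoly.dvd F y ?_) ?_).symm
    · rw [map_sub, map_pow, aeval_X, aeval_C, hb, sub_self]
    · rw [natDegree_X_pow_sub_C, hdeg]
  rw [trace_eq_finrank_mul_minpoly_nextCoeff, heq,
    nextCoeff_of_natDegree_pos (by rw [natDegree_X_pow_sub_C]; exact hp.pos),
    natDegree_X_pow_sub_C, coeff_sub, coeff_X_pow, coeff_C]
  have h1 : p - 1 ≠ p := by have := hp.two_le; omega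
  have h2 : p - 1 ≠ 0 := by have := hp.two_le; omega
  simp [h1, h2]

/-- Kummer theory in prime degree. -/
theorem exists_mul_pow_mem_range [Algebra.IsSeparable F F'] {p : ℕ} (hp : p.Prime)
    (hrank : Module.finrank F F' = p) {g x : F'} (hg : g ∉ (algebraMap F F').range)
    (hgp : g ^ p ∈ (algebraMap F F').range) (hxp : x ^ p ∈ (algebraMap F F').range) (hx : x ≠ 0) :
    ∃ i : ℕ, x * g ^ i ∈ (algebraMap F F').range := by
  by_contra h
  push Not at h
  have htop : IntermediateField.adjoin F {g} = ⊤ := by
    have hint : IsIntegral F g := IsIntegral.of_finite F g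
    refine IntermediateField.eq_of_le_of_finrank_eq le_top ?_
    rw [IntermediateField.finrank_top', hrank, IntermediateField.adjoin.finrank hint]
    have hd := minpoly.degree_dvd hint
    rw [hrank] at hd
    exact (hp.eq_one_or_self_of_dvd _ hd).resolve_left fun h1 =>
      hg (minpoly.natDegree_eq_one_iff.mp h1)
  have halg : Algebra.adjoin F {g} = ⊤ := by
    rw [← IntermediateField.adjoin_simple_toSubalgebra_of_isAlgebraic
      (Algebra.IsAlgebraic.isAlgebraic g), htop, IntermediateField.top_toSubalgebra]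
  refine hx ((traceForm_nondegenerate F F').1 x fun z => ?_)
  have hz : z ∈ Algebra.adjoin F {g} := halg ▸ Algebra.mem_top
  rw [Algebra.adjoin_singleton_eq_range_aeval] at hz
  obtain ⟨P, rfl⟩ := hz
  rw [Algebra.traceForm_apply]
  induction P using Polynomial.induction_on' with
  | add P Q hP hQ => rw [map_add, mul_add, map_add, hP, hQ, add_zero]
  | monomial i c =>
    rw [AlgHom.toRingHom_eq_coe, RingHom.coe_coe, aeval_monomial, ← Algebra.smul_def,
      mul_smul_comm, map_smul, trace_eq_zero_of_pow_mem hp hrank (h i), smul_zero]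
    rw [mul_pow, ← pow_mul, mul_comm i p, pow_mul]
    exact mul_mem hxp (pow_mem hgp i)

end Kummer

section Divisors

variable {K F F' : Type*} [Field K] [IsAlgClosed K] [Field F] [Field F'] [Algebra K F]
  [Algebra K F'] [FF.IsFunctionField K F'] [HasPrincipalDivisors K F] [HasPrincipalDivisors K F']
  [CharZero F]

variable (φ : F →ₐ[K] F') (hφ : φ.toRingHom.IsIntegral) (hfin : FiniteAlong K φ)

omit [IsAlgClosed K] [FF.IsFunctionField K F'] [HasPrincipalDivisors K F]
  [CharZero F] in
/-- The pullback of the divisor of `f` is the divisor of `φ f`. -/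
theorem pullbackAlong_ord {E : Divisor K F} {f : F} (hE : ∀ v : Place K F, E v = v.ord f)
    (w : Place K F') : Divisor.pullbackAlong φ hφ E w = w.ord (φ f) := by
  rw [Divisor.pullbackAlong_apply, hE, Place.ord_restrictAlong φ hφ w f]

omit [IsAlgClosed K] [FF.IsFunctionField K F'] [HasPrincipalDivisors K F] in
include hfin in
theorem pullbackAlong_injective {D E : Divisor K F}
    (h : Divisor.pullbackAlong φ hφ D = Divisor.pullbackAlong φ hφ E) : D = E := by
  have hsep : SeparableAlong K φ := FF.separableAlong_of_charZero hφ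
  have hd := congrArg (Divisor.pushforwardAlong φ hφ) h
  rw [FF.pushforwardAlong_pullbackAlong φ hφ hfin hsep,
    FF.pushforwardAlong_pullbackAlong φ hφ hfin hsep] at hd
  have hpos : (finrankAlong K φ : ℤ) ≠ 0 := by
    letI := algebraAlong φ
    haveI : Module.Finite F F' := hfin
    exact_mod_cast (Module.finrank_pos (R := F) (M := F')).ne'
  refine Finsupp.ext fun v => ?_
  have := DFunLike.congr_fun hd v
  simp only [Finsupp.smul_apply, smul_eq_mul] at this
  exact mul_left_cancel₀ hpos this

omit [IsAlgClosed K] [FF.IsFunctionField K F'] in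
include hfin in
/-- A divisor whose pullback is the divisor of a function of `F` is principal. -/
theorem isPrincipal_of_pullbackAlong_ord {D : Divisor K F} {f : F} (hf : f ≠ 0)
    (h : ∀ w : Place K F', Divisor.pullbackAlong φ hφ D w = w.ord (φ f)) : D.IsPrincipal := by
  obtain ⟨E, hE, -⟩ := HasPrincipalDivisors.exists_divisor (K := K) f hf
  refine ⟨f, hf, ?_⟩
  rw [pullbackAlong_injective φ hφ hfin (D := D) (E := E)
    (Finsupp.ext fun w => (h w).trans (pullbackAlong_ord φ hφ hE w).symm)]
  exact hE

include hfin in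
/-- Classes of `p`-torsion killed by pullback along a degree `p` map form a cyclic group. -/
theorem exists_isPrincipal_sub_zsmul {p : ℕ} (hp : p.Prime) (hrank : finrankAlong K φ = p)
    {D D₁ : Divisor K F} (hD : (Divisor.pullbackAlong φ hφ D).IsPrincipal)
    (hD₁ : (Divisor.pullbackAlong φ hφ D₁).IsPrincipal) (hpD : ((p : ℤ) • D).IsPrincipal)
    (hpD₁ : ((p : ℤ) • D₁).IsPrincipal) (hne : ¬ D₁.IsPrincipal) :
    ∃ n : ℤ, (D - n • D₁).IsPrincipal := by
  letI := algebraAlong φ
  haveI : Module.Finite F F' := hfin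
  have hrange : ∀ {E : Divisor K F} {g : F'}, g ≠ 0 →
      (∀ w, Divisor.pullbackAlong φ hφ E w = w.ord g) → ((p : ℤ) • E).IsPrincipal →
      g ^ p ∈ (algebraMap F F').range := by
    intro E g hg hgE ⟨f, hf, hfE⟩
    have hφf : φ f ≠ 0 := (map_ne_zero φ).mpr hf
    obtain ⟨c, hc⟩ := JPairing.eq_algebraMap_of_forall_ord_eq_zero (K := K) (f := g ^ p / φ f)
      fun w => by
        have h1 := pullbackAlong_ord φ hφ hfE w
        rw [map_zsmul, Finsupp.smul_apply, hgE, smul_eq_mul] at h1
        rw [div_eq_mul_inv, w.ord_mul (pow_ne_zero _ hg) (inv_ne_zero hφf), w.ord_inv, FF.ord_pow,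
          ← h1, add_neg_cancel]
    refine ⟨algebraMap K F c * f, ?_⟩
    show φ (algebraMap K F c * f) = _
    rw [map_mul, φ.commutes, hc, div_mul_cancel₀ _ hφf]
  obtain ⟨g, hg, hgD⟩ := hD₁
  obtain ⟨x, hx, hxD⟩ := hD
  have hgp := hrange hg hgD hpD₁
  have hxp := hrange hx hxD hpD
  have hg' : g ∉ (algebraMap F F').range := by
    rintro ⟨f, rfl⟩
    exact hne (isPrincipal_of_pullbackAlong_ord φ hφ hfin (fun h => hg (by rw [h, map_zero])) hgD)
  obtain ⟨i, f, hf⟩ := exists_mul_pow_mem_range hp hrank hg' hgp hxp hx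
  refine ⟨-(i : ℤ), isPrincipal_of_pullbackAlong_ord φ hφ hfin (f := f)
    (fun h => mul_ne_zero hx (pow_ne_zero i hg) (by rw [← hf, h, map_zero])) fun w => ?_⟩
  rw [neg_smul, sub_neg_eq_add, map_add, map_zsmul, Finsupp.add_apply, Finsupp.smul_apply, hgD,
    hxD]
  show _ = w.ord (algebraMap F F' f)
  rw [hf, w.ord_mul hx (pow_ne_zero i hg), FF.ord_pow, smul_eq_mul]

end Divisors

end Fermat.Agent.R59.Lower
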