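import Fermat.Agent.BAD.Modular.PushHecke
import Fermat.Agent.R59.Lower.KummerKernel
import Fermat.Agent.HK.HeckeGalois

/-!
# Pullback of divisor classes from level `M` to a multiple

* it commutes with Galois;
* it commutes with the pushforwards along the degeneracy maps at another prime;
* in prime degree steps, its kernel on `p`-torsion is cyclic.
-/

set_option autoImplicit false
set_option linter.style.haveILetI false

noncomputable section

open AlgebraicCurve ModularCurve IntermediateField
open Fermat.Agent.HK.Corr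
open Fermat.Agent.BAD.Modular

namespace Fermat.Agent.R59.Lower

section Level

variable {L : Type*} [Field L] [Algebra ℚ L]

variable {M M' : ℕ} [NeZero M] [NeZero M']

omit [NeZero M] in
theorem fundamentalIdentityAlong_degenMap (h : M * 1 ∣ M')
    [HasPrincipalDivisors L (modField L M')] :
    FundamentalIdentityAlong L (degenMap L 1 h) (isIntegral_degenMap (degreeInput L) 1 h) :=
  FF.fundamentalIdentityAlong _ _ (finiteAlong_degenMap (degreeInput L) 1 h)
    (separableAlong_degenMap (degreeInput L) 1 h)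

variable (L) in
/-- Pullback of divisors to level `M'`. -/
def degenPullDiv (h : M * 1 ∣ M') : Divisor L (modField L M) →+ Divisor L (modField L M') :=
  haveI := hasPrincipalDivisors_level L M'
  Divisor.pullbackAlong (degenMap L 1 h) (isIntegral_degenMap (degreeInput L) 1 h)

variable (L) in
/-- Pullback on degree zero divisors. -/
def degenPullDegZero (h : M * 1 ∣ M') :
    Divisor.degZero (K := L) (F := modField L M) →+
      Divisor.degZero (K := L) (F := modField L M') :=
  ((degenPullDiv L h).domRestrict (Divisor.degZero (K := L) (F := modField L M))).codRestrict _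
    fun D => haveI := hasPrincipalDivisors_level L M'
      Divisor.pullbackAlong_mem_degZero _ _ (fundamentalIdentityAlong_degenMap h) D.2

variable (L) in
/-- Pullback of classes to level `M'`. -/
def degenPull (h : M * 1 ∣ M') : Pic0 L (modField L M) →+ Pic0 L (modField L M') :=
  QuotientAddGroup.map _ _ (degenPullDegZero L h) (by
    rintro ⟨D, hD0⟩ hD
    simp only [AddSubgroup.mem_addSubgroupOf] at hD ⊢
    haveI := hasPrincipalDivisors_level L M'
    exact Divisor.isPrincipal_pullbackAlong (degenMap L 1 h)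
      (isIntegral_degenMap (degreeInput L) 1 h) hD)

omit [NeZero M] in
theorem degenPull_mk (h : M * 1 ∣ M') (D : Divisor.degZero (K := L) (F := modField L M)) :
    degenPull L h (Pic0.mk D) = Pic0.mk (degenPullDegZero L h D) := rfl

omit [Algebra ℚ L] in
theorem mk_eq_zero_iff {F : Type*} [Field F] [Algebra L F]
    (D : Divisor.degZero (K := L) (F := F)) :
    Pic0.mk D = 0 ↔ (D : Divisor L F).IsPrincipal := by
  rw [Pic0.mk, QuotientAddGroup.eq_zero_iff, AddSubgroup.mem_addSubgroupOf]
  rfl

omit [NeZero M] in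
/-- Pullback commutes with Galois. -/
theorem degenPull_smul (h : M * 1 ∣ M') (σ : L ≃ₐ[ℚ] L) (x : Pic0 L (modField L M)) :
    degenPull L h (σ • x) = σ • degenPull L h x := by
  haveI := hasPrincipalDivisors_level L M'
  obtain ⟨D, rfl⟩ := Pic0.mk_surjective x
  rw [galois_smul_pic0_def, galois_smul_pic0_def, SemilinearAut.pic0_smul_mk, degenPull_mk,
    degenPull_mk, SemilinearAut.pic0_smul_mk]
  refine congrArg Pic0.mk (Subtype.ext ?_)
  exact pullbackAlong_smul (degenMap L 1 h) (isIntegral_degenMap (degreeInput L) 1 h)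
    (intertwines_of_coe σ (degenMap L 1 h) (qExpand L 1)
      (fun x => ModularCurve.coeffMap_qExpand (σ : L →+* L) 1 x)
      (fun x => coe_degenMap 1 h x)) (D : Divisor L (modField L M))

omit [NeZero M] in
/-- In degree prime to `p`, pullback is injective on `p`-torsion. -/
theorem eq_zero_of_degenPull_eq_zero (h : M * 1 ∣ M') {p : ℕ}
    (hcop : (finrankAlong L (degenMap L 1 h)).Coprime p) {x : Pic0 L (modField L M)}
    (hp : p • x = 0) (h0 : degenPull L h x = 0) : x = 0 := by
  haveI := hasPrincipalDivisors_level L M'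
  obtain ⟨D, rfl⟩ := Pic0.mk_surjective x
  rw [degenPull_mk, mk_eq_zero_iff] at h0
  have hfin := finiteAlong_degenMap (degreeInput L) 1 h
  have hsep := separableAlong_degenMap (degreeInput L) 1 h
  have h1 := Divisor.isPrincipal_pushforwardAlong (degenMap L 1 h)
    (isIntegral_degenMap (degreeInput L) 1 h) hfin
    (FF.normFormulaAlong _ hfin hsep) h0
  rw [show (degenPullDegZero L h D : Divisor L (modField L M')) =
      Divisor.pullbackAlong (degenMap L 1 h) (isIntegral_degenMap (degreeInput L) 1 h)
        (D : Divisor L (modField L M)) from rfl,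
    FF.pushforwardAlong_pullbackAlong _ _ hfin hsep] at h1
  have h2 : finrankAlong L (degenMap L 1 h) • Pic0.mk D = 0 := by
    rw [show finrankAlong L (degenMap L 1 h) • Pic0.mk D =
      Pic0.mk (finrankAlong L (degenMap L 1 h) • D) from (map_nsmul (QuotientAddGroup.mk' _) _ D).symm,
      mk_eq_zero_iff, AddSubmonoidClass.coe_nsmul, ← natCast_zsmul]
    exact h1
  refine AddMonoid.addOrderOf_eq_one_iff.mp (Nat.dvd_one.mp ?_)
  rw [← hcop]
  exact Nat.dvd_gcd (addOrderOf_dvd_of_nsmul_eq_zero h2) (addOrderOf_dvd_of_nsmul_eq_zero hp)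

/-- In degree `p`, the kernel on `p`-torsion is cyclic. -/
theorem exists_eq_zsmul_of_degenPull_eq_zero [IsAlgClosed L] (h : M * 1 ∣ M') {p : ℕ}
    (hp : p.Prime) (hrank : finrankAlong L (degenMap L 1 h) = p)
    {x x₁ : Pic0 L (modField L M)} (hx : p • x = 0) (hx₁ : p • x₁ = 0)
    (h0 : degenPull L h x = 0) (h01 : degenPull L h x₁ = 0) (hne : x₁ ≠ 0) :
    ∃ n : ℤ, x = n • x₁ := by
  haveI := hasPrincipalDivisors_level L M
  haveI := hasPrincipalDivisors_level L M'
  haveI : CharZero L := charZero_of_injective_algebraMap (algebraMap ℚ L).injective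
  haveI : CharZero (modField L M) := charZero_of_injective_algebraMap (algebraMap L _).injective
  haveI : FF.IsFunctionField L (modField L M') :=
    MF.Coeff.isFunctionField_laurentBaseChange L M'
  obtain ⟨D, rfl⟩ := Pic0.mk_surjective x
  obtain ⟨D₁, rfl⟩ := Pic0.mk_surjective x₁
  rw [degenPull_mk, mk_eq_zero_iff] at h0 h01
  rw [show p • Pic0.mk D = Pic0.mk (p • D) from (map_nsmul (QuotientAddGroup.mk' _) _ D).symm,
    mk_eq_zero_iff, AddSubmonoidClass.coe_nsmul, ← natCast_zsmul] at hx
  rw [show p • Pic0.mk D₁ = Pic0.mk (p • D₁) from (map_nsmul (QuotientAddGroup.mk' _) _ D₁).symm,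
    mk_eq_zero_iff, AddSubmonoidClass.coe_nsmul, ← natCast_zsmul] at hx₁
  rw [Ne, mk_eq_zero_iff] at hne
  obtain ⟨n, hn⟩ := exists_isPrincipal_sub_zsmul (degenMap L 1 h)
    (isIntegral_degenMap (degreeInput L) 1 h) (finiteAlong_degenMap (degreeInput L) 1 h) hp hrank
    h0 h01 hx hx₁ hne
  refine ⟨n, ?_⟩
  rw [← sub_eq_zero, show n • Pic0.mk D₁ = Pic0.mk (n • D₁) from
      (map_zsmul (QuotientAddGroup.mk' _) _ D₁).symm,
    show Pic0.mk D - Pic0.mk (n • D₁) = Pic0.mk (D - n • D₁) from rfl, mk_eq_zero_iff,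
    AddSubgroupClass.coe_sub, AddSubgroupClass.coe_zsmul]
  exact hn

variable (L) in
/-- `L(j, j_ab)` is generated by `j_a, j_b`. -/
theorem modField_le_adjoin_pair {a b : ℕ} [NeZero a] [NeZero b] (hab : a.Coprime b) :
    modField L (a * b) ≤
      adjoin L ({qExpand L a (jSer L), qExpand L b (jSer L)} : Set (LaurentSeries L)) := by
  obtain ⟨σ, hσ₁, hσ₂⟩ := exists_atkinEmbedding L a b hab
  have hD : DegreeInput L := degreeInput L
  let F := adjoin L ({qExpand L 1 (jSer L), qExpand L (a * b) (jSer L)} : Set (LaurentSeries L))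
  let E := adjoin L ({qExpand L a (jSer L), qExpand L b (jSer L)} : Set (LaurentSeries L))
  have hF : modField L (a * b) = F := by
    rw [modField_eq_pair (functionFieldGeneration_all (a * b))]
    show _ = adjoin L ({qExpand L 1 (jSer L), qExpand L (a * b) (jSer L)} : Set (LaurentSeries L))
    rw [qExpand_one_jSer]
  have hEF : E ≤ modField L (a * b) := adjoin_le_iff.mpr (by
    rintro z (rfl | rfl)
    · exact qExpand_jSer_mem (dvd_mul_right a b)
    · exact qExpand_jSer_mem (dvd_mul_left b a))
  let y : F := ⟨qExpand L 1 (jSer L), subset_adjoin L _ (Set.mem_insert _ _)⟩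
  let z : F := ⟨qExpand L (a * b) (jSer L), subset_adjoin L _ (Set.mem_insert_of_mem _ rfl)⟩
  have htop : (⊤ : IntermediateField L F) = adjoin L {y, z} := by
    refine IntermediateField.map_injective F.val ?_
    rw [adjoin_map, Set.image_pair, ← AlgHom.fieldRange_eq_map, fieldRange_val]
    rfl
  have h₁ : (jLine L).relfinrank F = (adjoin L {y}).relfinrank ⊤ := by
    rw [← relfinrank_map_map (adjoin L {y}) ⊤ F.val, adjoin_map, Set.image_singleton,
      ← AlgHom.fieldRange_eq_map, fieldRange_val]
    show _ = (adjoin L {qExpand L 1 (jSer L)}).relfinrank F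
    rw [qExpand_one_jSer, jLine]
  have h₂ : (adjoin L {qExpand L a (jSer L)}).relfinrank E = (adjoin L {y}).relfinrank ⊤ := by
    rw [← relfinrank_map_map (adjoin L {y}) ⊤ σ, htop, adjoin_map, adjoin_map, Set.image_singleton,
      Set.image_pair, hσ₁, hσ₂]
  have hAE : adjoin L {qExpand L a (jSer L)} ≤ E :=
    adjoin.mono _ _ _ (Set.singleton_subset_iff.mpr (Set.mem_insert _ _))
  have h3 := relfinrank_mul_relfinrank hAE hEF
  have h4 := relfinrank_qExpand_jSer hD (M := a * b) (dvd_mul_right a b)
    (functionFieldGeneration_all a)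
  rw [h4, h₂, ← h₁, ← hF, hD.relfinrank_eq] at h3
  exact relfinrank_eq_one_iff.mp
    (Nat.eq_of_mul_eq_mul_left (psi_pos (a * b)) (h3.trans (mul_one _).symm))

/-- `L(X₀(N q r))` is generated by levels `N q` and `N r`. -/
theorem modField_le_sup {N q r : ℕ} [NeZero q] [NeZero r] (hq : q.Prime) (hr : r.Prime)
    (hne : q ≠ r) : modField L (N * q * r) ≤ modField L (N * r) ⊔ modField L (N * q) := by
  rw [modField_le_iff]
  intro D hD hD0
  by_cases h1 : D ∣ N * q
  · exact SetLike.le_def.mp le_sup_right (qExpand_jSer_mem h1)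
  by_cases h2 : D ∣ N * r
  · exact SetLike.le_def.mp le_sup_left (qExpand_jSer_mem h2)
  have hcop : q.Coprime r := (Nat.coprime_primes hq hr).mpr hne
  have hrD : r ∣ D := by
    by_contra h
    exact h1 ((hr.coprime_iff_not_dvd.mpr h).symm.dvd_of_dvd_mul_right hD)
  have hqD : q ∣ D := by
    by_contra h
    rw [mul_right_comm] at hD
    exact h2 ((hq.coprime_iff_not_dvd.mpr h).symm.dvd_of_dvd_mul_right hD)
  obtain ⟨e, rfl⟩ := hcop.mul_dvd_of_dvd_of_dvd hqD hrD
  haveI : NeZero e := ⟨right_ne_zero_of_mul hD0.ne⟩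
  haveI : NeZero (q * r) := ⟨mul_ne_zero hq.ne_zero hr.ne_zero⟩
  have he : e ∣ N := by
    rw [show N * q * r = q * r * N by ring] at hD
    exact Nat.dvd_of_mul_dvd_mul_left (Nat.mul_pos hq.pos hr.pos) hD
  have hle : (adjoin L ({qExpand L q (jSer L), qExpand L r (jSer L)} : Set (LaurentSeries L))).map
      (qExpandAlg L e) ≤ modField L (N * r) ⊔ modField L (N * q) := by
    rw [map_le_iff_le_comap, adjoin_le_iff]
    rintro x (rfl | rfl)
    · show qExpand L e (qExpand L q (jSer L)) ∈ modField L (N * r) ⊔ modField L (N * q)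
      rw [qExpand_qExpand]
      exact SetLike.le_def.mp le_sup_right
        (qExpand_jSer_mem (mul_dvd_mul_right he q))
    · show qExpand L e (qExpand L r (jSer L)) ∈ modField L (N * r) ⊔ modField L (N * q)
      rw [qExpand_qExpand]
      exact SetLike.le_def.mp le_sup_left
        (qExpand_jSer_mem (mul_dvd_mul_right he r))
  have hmem := hle ⟨qExpand L (q * r) (jSer L),
    modField_le_adjoin_pair L hcop (qExpand_jSer_mem dvd_rfl), rfl⟩
  have e' : qExpand L e (qExpand L (q * r) (jSer L)) = qExpand L (q * r * e) (jSer L) :=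
    (qExpand_qExpand (q * r) e _).trans (qExpand_congr (mul_comm _ _) _)
  rw [← e']
  exact hmem

/-- Pullback to level `N r` commutes with both pushforwards at `q`. -/
theorem degenPull_degenPush {N q r : ℕ} [NeZero N] [NeZero q] [NeZero r] (hq : q.Prime)
    (hr : r.Prime) (hne : q ≠ r) (d : ℕ) [NeZero d] (hd : d ∣ q) (h : N * d ∣ N * q)
    (hu : N * r * d ∣ N * r * q) (h₁ : N * q * 1 ∣ N * r * q) (h₂ : N * 1 ∣ N * r)
    (x : Pic0 L (modField L (N * q))) :
    degenPull L h₂ (degenPush L d h x) = degenPush L d hu (degenPull L h₁ x) := by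
  have hD := degreeInput L
  haveI := hasPrincipalDivisors_level L (N * q)
  haveI := hasPrincipalDivisors_level L (N * r)
  haveI := hasPrincipalDivisors_level L (N * r * q)
  obtain ⟨D, rfl⟩ := Pic0.mk_surjective x
  rw [degenPush_mk, degenPull_mk, degenPull_mk, degenPush_mk]
  refine congrArg Pic0.mk (Subtype.ext ?_)
  refine FF.pullbackAlong_pushforwardAlong_of_cartesian (degenMap L 1 h₂) (degenMap L d h)
    (degenMap L d hu) (degenMap L 1 h₁) ?_ (isIntegral_degenMap hD 1 h₂) (isIntegral_degenMap hD d h)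
    (isIntegral_degenMap hD d hu) (isIntegral_degenMap hD 1 h₁) (finiteAlong_degenMap hD d h)
    (finiteAlong_degenMap hD d hu) (separableAlong_degenMap hD d h)
    (separableAlong_degenMap hD d hu) ?_ ?_ _
  · have hd1 : N * d ∣ N * r * q := dvd_trans (mul_dvd_mul_right (dvd_mul_right N r) d) hu
    rw [degenMap_comp 1 d d h₂ hu (mul_one d).symm hd1,
      degenMap_comp d 1 d h h₁ (one_mul d).symm hd1]
  · rw [eq_top_iff]
    intro y _
    have hmap : (y : LaurentSeries L) ∈
        ((degenMap L d hu).fieldRange ⊔ (degenMap L 1 h₁).fieldRange).map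
          (modField L (N * r * q)).val := by
      rw [IntermediateField.map_sup, fieldRange_degenMap, fieldRange_degenMap, map_qExpandAlg_one]
      have hy : (y : LaurentSeries L) ∈ modField L (N * q * r) := by
        rw [mul_right_comm]; exact y.2
      rcases (Nat.dvd_prime hq).mp hd with rfl | rfl
      · rw [map_qExpandAlg_one]
        exact modField_le_sup hq hr hne hy
      · haveI : NeZero (d * r) := ⟨mul_ne_zero hq.ne_zero hr.ne_zero⟩
        have := modField_le_map_sup (L := L) (N := N) hq hr hne
          (functionFieldGeneration_all (d * r)) hy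
        rwa [map_qExpandAlg_one, sup_comm] at this
    obtain ⟨z, hz, hzy⟩ := hmap
    rwa [← Subtype.ext hzy]
  · obtain ⟨c, -, hc, hc'⟩ := psi_mul_prime_pos_factor (N := N) hq
    have e₁ := finrankAlong_degenMap hD d hu (functionFieldGeneration_all d)
    have e₂ := finrankAlong_degenMap hD d h (functionFieldGeneration_all d)
    have hiff : q ∣ N * r ↔ q ∣ N :=
      ⟨((Nat.coprime_primes hq hr).mpr hne).dvd_of_dvd_mul_right,
        fun h => h.trans (dvd_mul_right N r)⟩
    rw [hc' (N * r) hiff, mul_comm c] at e₁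
    rw [hc, mul_comm c] at e₂
    rw [Nat.eq_of_mul_eq_mul_left (psi_pos _) e₁, Nat.eq_of_mul_eq_mul_left (psi_pos _) e₂]

end Level

end Fermat.Agent.R59.Lower
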