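import Fermat.Agent.R59.Lower.Inertia
import Fermat.Agent.R59.Lower.Pullback

/-!
# Removing one `q` from a residual level divisible by `q³`

`StmtKeyHigh` is the geometric input at `X₀(qⁿ L)`, `n ≥ 3`: an inertia-invariant torsion class
prime to `q` killed by both pushforwards to level `qⁿ⁻¹ L` vanishes. `descend` turns it into:
a residual system of a semistable curve at level `N q`, `q² ∣ N`, lives at level `N`.
-/

set_option autoImplicit false
set_option linter.style.haveILetI false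

noncomputable section

open ModularCurve AlgebraicCurve WeierstrassCurve
open Fermat.Agent.HK.Corr
open Fermat.Agent.BAD.Modular

namespace Fermat.Agent.R59.Lower

local notation "Ω" => AlgebraicClosure ℚ
local notation "GQ" => AlgebraicClosure ℚ ≃ₐ[ℚ] AlgebraicClosure ℚ

/-- The geometric input at `X₀(qⁿ L)`, `n ≥ 3`, with `4 ∣ L` for odd `q` and `9 ∣ L` for `q = 2`. -/
def StmtKeyHigh : Prop :=
  ∀ (q : ℕ) [NeZero q], q.Prime → ∀ (N : ℕ) [NeZero N], q ^ 2 ∣ N →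
    (q = 2 → 9 ∣ N) → (q ≠ 2 → 4 ∣ N) →
    ∀ m : ℕ, 0 < m → ¬ q ∣ m → ∀ P : JZero (N * q), m • P = 0 →
    ∀ A : ValuationSubring Ω, A.LiesOverPrime q → (∀ σ ∈ A.inertiaSubgroupIn ℚ, σ • P = P) →
    degenPush (M := N) (q := q) Ω 1 (mul_dvd_mul_left N (one_dvd q)) P = 0 →
    degenPush (M := N) (q := q) Ω q dvd_rfl P = 0 → P = 0

/-- A Galois stable group of `p`-torsion points without stable lines. -/
structure LineFree (p : ℕ) {N : ℕ} (V : AddSubgroup (JZero N)) : Prop where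
  torsion : ∀ x ∈ V, p • x = 0
  stable : ∀ (σ : GQ), ∀ x ∈ V, σ • x ∈ V
  no_line : ∀ x ∈ V, x ≠ 0 → ¬ ∀ σ : GQ, ∃ n : ℤ, σ • x = n • x

/-- The conclusion of `StmtKeyHigh` on line-free groups. -/
def Separated (p q : ℕ) [NeZero q] (A : ValuationSubring Ω) (N : ℕ) [NeZero N] : Prop :=
  ∀ V : AddSubgroup (JZero (N * q)), LineFree p V → ∀ P ∈ V,
    (∀ σ ∈ A.inertiaSubgroupIn ℚ, σ • P = P) →
    degenPush (M := N) (q := q) Ω 1 (mul_dvd_mul_left N (one_dvd q)) P = 0 →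
    degenPush (M := N) (q := q) Ω q dvd_rfl P = 0 → P = 0

theorem separated_of_key (hkey : StmtKeyHigh) {p q N : ℕ} [NeZero q] [NeZero N] (hp : p.Prime)
    (hq : q.Prime) (hqp : q ≠ p) {A : ValuationSubring Ω} (hA : A.LiesOverPrime q)
    (h2 : q ^ 2 ∣ N) (h9 : q = 2 → 9 ∣ N) (h4 : q ≠ 2 → 4 ∣ N) : Separated p q A N :=
  fun _ hV P hP hfix ha hb => hkey q hq N h2 h9 h4 p hp.pos
    (fun h => hqp ((Nat.prime_dvd_prime_iff_eq hq hp).mp h)) P (hV.torsion P hP) A hA hfix ha hb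

/-- Pullback is injective on a line-free group when the degree is at most `4`. -/
theorem LineFree.eq_zero_of_degenPull {p M M' : ℕ} [NeZero M] [NeZero M'] (hp : p.Prime)
    (hp2 : p ≠ 2) (h : M * 1 ∣ M') (hdeg : finrankAlong Ω (degenMap Ω 1 h) ≤ 4)
    (hdeg0 : finrankAlong Ω (degenMap Ω 1 h) ≠ 0) {V : AddSubgroup (JZero M)} (hV : LineFree p V)
    {x : JZero M} (hx : x ∈ V) (h0 : degenPull Ω h x = 0) : x = 0 := by
  by_cases hcop : (finrankAlong Ω (degenMap Ω 1 h)).Coprime p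
  · exact eq_zero_of_degenPull_eq_zero h hcop (hV.torsion x hx) h0
  have hdvd : p ∣ finrankAlong Ω (degenMap Ω 1 h) := by
    by_contra hnd
    exact hcop (hp.coprime_iff_not_dvd.mpr hnd).symm
  obtain ⟨k, hk⟩ := hdvd
  have hp3 : 3 ≤ p := by have := hp.two_le; omega
  have hk1 : k = 1 := by
    rcases k with _ | _ | k
    · rw [mul_zero] at hk; exact absurd hk hdeg0
    · rfl
    · nlinarith
  rw [hk1, mul_one] at hk
  by_contra hne
  refine hV.no_line x hx hne fun σ => ?_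
  exact exists_eq_zsmul_of_degenPull_eq_zero h hp hk (hV.torsion _ (hV.stable σ x hx))
    (hV.torsion x hx) (by rw [degenPull_smul, h0]; exact smul_zero (A := JZero M') σ) h0 hne

theorem LineFree.map_degenPull {p M M' : ℕ} [NeZero M] [NeZero M'] {h : M * 1 ∣ M'}
    {V : AddSubgroup (JZero M)} (hV : LineFree p V)
    (hinj : ∀ x ∈ V, degenPull Ω h x = 0 → x = 0) :
    LineFree (N := M') p (V.map (degenPull Ω h)) where
  torsion := by
    rintro _ ⟨x, hx, rfl⟩
    rw [← map_nsmul, hV.torsion x hx, map_zero]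
  stable := by
    rintro σ _ ⟨x, hx, rfl⟩
    exact ⟨σ • x, hV.stable σ x hx, degenPull_smul h σ x⟩
  no_line := by
    rintro _ ⟨x, hx, rfl⟩ hne hline
    refine hV.no_line x hx (fun h0 => hne (by rw [h0, map_zero])) fun σ => ?_
    obtain ⟨n, hn⟩ := hline σ
    refine ⟨n, sub_eq_zero.mp (hinj _ (V.sub_mem (hV.stable σ x hx) (V.zsmul_mem hx n)) ?_)⟩
    rw [map_sub, map_zsmul, degenPull_smul, hn, sub_self]

/-- Separation descends from level `N r` to level `N` for `r ≤ 3`. -/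
theorem Separated.of_mul {p q r N : ℕ} [NeZero q] [NeZero r] [NeZero N] (hp : p.Prime) (hp2 : p ≠ 2)
    (hq : q.Prime) (hr : r.Prime) (hr3 : r ≤ 3) (hne : q ≠ r) {A : ValuationSubring Ω}
    (h : Separated p q A (N * r)) : Separated p q A N := by
  intro V hV P hP hfix ha hb
  have h₁ : N * q * 1 ∣ N * r * q := by rw [mul_one, mul_right_comm]; exact dvd_mul_right _ r
  have hinj : ∀ x ∈ V, degenPull Ω h₁ x = 0 → x = 0 := fun x hx h0 => by
    have e := finrankAlong_degenMap_one (degreeInput Ω) h₁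
    obtain ⟨c, hc0, hc, -⟩ := psi_mul_prime_pos_factor (N := N * q) hr
    have hψ : dedekindPsi (N * r * q) = c * dedekindPsi (N * q) := by
      rw [mul_right_comm]; exact hc
    rw [hψ, mul_comm c] at e
    have hd := Nat.eq_of_mul_eq_mul_left (psi_pos (N * q)) e
    have hc4 : c ≤ 4 := by
      by_cases hrd : r ∣ N * q
      · rw [psi_mul_prime_of_dvd hr hrd] at hc
        have := Nat.eq_of_mul_eq_mul_right (psi_pos (N * q)) hc
        omega
      · rw [psi_mul_prime_of_not_dvd hr hrd] at hc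
        have := Nat.eq_of_mul_eq_mul_right (psi_pos (N * q)) hc
        omega
    exact hV.eq_zero_of_degenPull hp hp2 h₁ (hd ▸ hc4) (hd ▸ hc0.ne') hx h0
  refine hinj P hP (h _ (hV.map_degenPull hinj) _ ⟨P, hP, rfl⟩ ?_ ?_ ?_)
  · intro σ hσ
    rw [← degenPull_smul, hfix σ hσ]
  · rw [← degenPull_degenPush (N := N) hq hr hne 1 (one_dvd q) (mul_dvd_mul_left N (one_dvd q))
      (mul_dvd_mul_left _ (one_dvd q)) h₁ (mul_dvd_mul_left N (one_dvd r)) P, ha, map_zero]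
  · rw [← degenPull_degenPush (N := N) hq hr hne q dvd_rfl dvd_rfl dvd_rfl h₁
      (mul_dvd_mul_left N (one_dvd r)) P, hb, map_zero]

theorem separated (hkey : StmtKeyHigh) {p q N : ℕ} [NeZero q] [NeZero N] (hp : p.Prime)
    (hp2 : p ≠ 2) (hq : q.Prime) (hqp : q ≠ p) {A : ValuationSubring Ω} (hA : A.LiesOverPrime q)
    (h2 : q ^ 2 ∣ N) : Separated p q A N := by
  obtain ⟨r, hr, hr3, hne, h9, h4⟩ : ∃ r : ℕ, r.Prime ∧ r ≤ 3 ∧ q ≠ r ∧
      (q = 2 → r = 3) ∧ (q ≠ 2 → r = 2) := by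
    rcases eq_or_ne q 2 with h | h
    · exact ⟨3, Nat.prime_three, le_rfl, by omega, fun _ => rfl, fun h' => absurd h h'⟩
    · exact ⟨2, Nat.prime_two, by norm_num, h, fun h' => absurd h' h, fun _ => rfl⟩
  haveI : NeZero r := ⟨hr.ne_zero⟩
  have hbase : Separated p q A (N * r * r) := by
    refine separated_of_key hkey hp hq hqp hA ((h2.mul_right r).mul_right r) (fun h => ?_)
      (fun h => ?_)
    · rw [h9 h, mul_assoc]; exact dvd_mul_of_dvd_right (by norm_num) N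
    · rw [h4 h, mul_assoc]; exact dvd_mul_of_dvd_right (by norm_num) N
  exact (hbase.of_mul hp hp2 hq hr hr3 hne).of_mul hp hp2 hq hr hr3 hne

/-- **Descent.** A residual system of a semistable curve at level `N q` with `q² ∣ N` lives at
level `N`. -/
theorem descend (hkey : StmtKeyHigh) {W : WeierstrassCurve ℤ} (hΔ : W.Δ ≠ 0) {p q N : ℕ}
    [Fact p.Prime] [NeZero q] [NeZero N] (hp2 : p ≠ 2) (hirr : W.ModRepIsIrreducible p)
    (hq : q.Prime) (hqp : q ≠ p) (hss : (q : ℤ) ∣ W.Δ → ¬ (q : ℤ) ∣ W.c₄) (h2 : q ^ 2 ∣ N)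
    (hres : W.IsResiduallyModularOfLevel p (N * q)) : W.IsResiduallyModularOfLevel p N := by
  have hp : p.Prime := Fact.out
  set S := badSet W (N * q) p with hS
  have hpf : (N * q).primeFactors = N.primeFactors := by
    rw [Nat.primeFactors_mul (NeZero.ne N) hq.ne_zero, hq.primeFactors, Finset.union_eq_left,
      Finset.singleton_subset_iff, Nat.mem_primeFactors]
    exact ⟨hq, (dvd_pow_self q two_ne_zero).trans h2, NeZero.ne N⟩
  have hNS : N.primeFactors ⊆ S := hpf ▸ primeFactors_subset_badSet W (N * q) p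
  obtain ⟨f, 𝔪, hf, hmax, hpm, hcong⟩ := hres
  obtain ⟨P₀, hP₀, hP₀0⟩ := exists_ne_zero_mem_eigenGroup (a := W.apOfModel)
    (primeFactors_subset_badSet W (N * q) p) hf hmax hpm fun ℓ hℓ hℓS =>
      let ⟨hne, hM, hg⟩ := notMem_badSet hΔ hℓ hℓS
      hcong ℓ hℓ hg hM hne
  obtain ⟨A, hA⟩ : ∃ A : ValuationSubring Ω, A.LiesOverPrime q :=
    let ⟨A, _, hA, _⟩ := Galois.exists_place_isFrobeniusAt hq
    ⟨A, hA⟩
  obtain ⟨P, hP, hP0, hfix⟩ := exists_fixed_ne_zero W hΔ hq hqp hss hA hP₀ hP₀0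
  have hV : LineFree p (eigenGroup (N * q) p W.apOfModel S) :=
    ⟨fun x hx => hx.1, fun σ x hx => smul_mem_eigenGroup σ hx,
      fun x hx h0 hl => not_stable_line W hΔ hp2 hirr hx h0 hl⟩
  obtain ⟨d, hd, hdvd, hne⟩ : ∃ (d : ℕ) (_ : NeZero d) (hdvd : N * d ∣ N * q),
      d ∣ q ∧ degenPush (M := N) (q := q) Ω d hdvd P ≠ 0 := by
    by_contra h
    push Not at h
    exact hP0 (separated hkey hp hp2 hq hqp hA h2 _ hV P hP hfix
      (h 1 inferInstance _ (one_dvd q)) (h q inferInstance _ dvd_rfl))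
  have hQ : degenPush (M := N) (q := q) Ω d hdvd P ∈ eigenGroup N p W.apOfModel S := by
    refine ⟨by rw [← map_nsmul, hP.1, map_zero], fun ℓ hℓ => ?_⟩
    haveI : NeZero (ℓ : ℕ) := ⟨ℓ.2.ne_zero⟩
    have hℓM : ¬ (ℓ : ℕ) ∣ N * q := (notMem_badSet hΔ ℓ.2 hℓ).2.1
    rw [← map_zsmul, ← hP.2 ℓ hℓ]
    exact (degenPush_heckeOperatorAlong hq ℓ.2 hℓM d hne.1 hdvd P).symm
  obtain ⟨g, 𝔫, hg, hnmax, hpn, hgc⟩ := exists_eigenform_of_mem_eigenGroup hNS hQ hne.2
  refine ⟨g, 𝔫, hg, hnmax, hpn, fun ℓ hℓ hgood hℓN hℓp => hgc ℓ hℓ ?_⟩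
  rw [hS, badSet, hpf, Finset.mem_insert, Finset.mem_union, not_or, not_or, Nat.mem_primeFactors,
    Nat.mem_primeFactors]
  exact ⟨hℓp, fun h => hℓN h.2.1, fun h => hgood (Int.natCast_dvd.mpr h.2.1)⟩

end Fermat.Agent.R59.Lower
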