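import Fermat.Agent.LR.Main
import Fermat.Agent.HK.TateFinal
import Fermat.Agent.Eigen.Coeff
import Fermat.Agent.Eigen.Points
import Fermat.Agent.MF.IntStruct.Main
import Fermat.Prelude.Def_FLTPrelim_ModularRep

/-!
# Residual eigen systems and `p`-torsion points of `J₀(M)`

* `eigenGroup M p a S`: the `p`-torsion points on which `T_ℓ` acts as `a ℓ` for `ℓ ∉ S`.
* `exists_ne_zero_mem_eigenGroup`: an eigenform congruent to `a` gives a nonzero such point.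
* `exists_eigenform_of_mem_eigenGroup`: the converse.
-/

set_option autoImplicit false
set_option linter.style.haveILetI false

noncomputable section

open ModularCurve CongruenceSubgroup ModularFormClass Matrix

namespace Fermat.Agent.R59.Lower

/-- The `p`-torsion points of `J₀(M)` on which `T_ℓ` acts as `a ℓ` for every prime `ℓ ∉ S`. -/
def eigenGroup (M p : ℕ) [NeZero M] (a : ℕ → ℤ) (S : Finset ℕ) : AddSubgroup (JZero M) where
  carrier := {P | p • P = 0 ∧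
    ∀ ℓ : Nat.Primes, (ℓ : ℕ) ∉ S → heckeOperatorBar M ℓ P = a ℓ • P}
  zero_mem' := ⟨smul_zero _, fun ℓ _ => by rw [map_zero, smul_zero]⟩
  add_mem' := by
    rintro P Q ⟨hP, hP'⟩ ⟨hQ, hQ'⟩
    exact ⟨by rw [nsmul_add, hP, hQ, add_zero],
      fun ℓ hℓ => by rw [map_add, hP' ℓ hℓ, hQ' ℓ hℓ, zsmul_add]⟩
  neg_mem' := by
    rintro P ⟨hP, hP'⟩
    exact ⟨((nsmulAddMonoidHom (α := JZero M) p).map_neg P).trans (by rw [nsmulAddMonoidHom_apply, hP, neg_zero]), fun ℓ hℓ => by rw [map_neg, hP' ℓ hℓ, zsmul_neg]⟩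

theorem mem_eigenGroup {M p : ℕ} [NeZero M] {a : ℕ → ℤ} {S : Finset ℕ} {P : JZero M} :
    P ∈ eigenGroup M p a S ↔ p • P = 0 ∧
      ∀ ℓ : Nat.Primes, (ℓ : ℕ) ∉ S → heckeOperatorBar M ℓ P = a ℓ • P := Iff.rfl

theorem finite_eigenGroup (M p : ℕ) [NeZero M] [Fact p.Prime] (a : ℕ → ℤ) (S : Finset ℕ) :
    Finite (eigenGroup M p a S) := by
  have h := HK.finite_setOf_pow_smul_eq_zero M p 1
  refine (h.subset fun P hP => ?_).to_subtype
  exact (congrArg (· • P) (pow_one p)).trans hP.1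

/-- The coordinates of `g x` in terms of those of `x`. -/
theorem hMatrix_mulVec (M : ℕ) [NeZero M] (R : Type) [CommRing R] [IsAddTorsionFree R]
    (g : Module.End R (HK.HSpace M R)) (x : HK.HSpace M R) :
    HK.hMatrix M R g *ᵥ HK.hCoord M R x = HK.hCoord M R (g x) := by
  show LinearMap.toMatrixAlgEquiv' ((HK.hCoord M R).conjAlgEquiv R g) *ᵥ _ = _
  rw [← Matrix.toLinAlgEquiv'_apply, Matrix.toLinAlgEquiv'_toMatrixAlgEquiv']
  simp

variable {M p : ℕ} [NeZero M] [Fact p.Prime] {a : ℕ → ℤ} {S : Finset ℕ}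

/-- A congruence of eigen systems gives a nonzero eigen point. -/
theorem exists_ne_zero_mem_eigenGroup (hS : M.primeFactors ⊆ S)
    {f : CuspForm (Gamma0 M) 2} (hf : f.IsNormalizedEigenform)
    {𝔪 : Ideal (integralClosure ℤ ℂ)} (hmax : 𝔪.IsMaximal) (hpm : (p : integralClosure ℤ ℂ) ∈ 𝔪)
    (hcong : ∀ ℓ : ℕ, ℓ.Prime → ℓ ∉ S →
      ∃ c : integralClosure ℤ ℂ, (c : ℂ) = qCoeff f ℓ ∧ c - (a ℓ : integralClosure ℤ ℂ) ∈ 𝔪) :
    ∃ P ∈ eigenGroup M p a S, P ≠ 0 := by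
  have hp : p.Prime := Fact.out
  have := HK.moduleFinite_tFull M
  obtain ⟨v, hv, hv'⟩ := LR.exists_lattice_vector hp (Eigen.eigenCharInt hf ∅) 𝔪 hmax hpm
  let e := (HK.tateCoords M p).e 1
  let c : Fin (MF.ParHom.parRank M) → ZMod (p ^ 1) := fun i => (HK.hCoord M ℤ v i : ZMod (p ^ 1))
  refine ⟨(e.symm c : JZero M), ⟨?_, fun ℓ hℓ => ?_⟩, fun h0 => ?_⟩
  · exact (congrArg (· • _) (pow_one p)).symm.trans (e.symm c).2
  · have : Fact (ℓ : ℕ).Prime := ⟨ℓ.2⟩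
    have hℓM : ¬ (ℓ : ℕ) ∣ M := fun hd =>
      hℓ (hS (Nat.mem_primeFactors.mpr ⟨ℓ.2, hd, NeZero.ne M⟩))
    obtain ⟨b, hb, hbm⟩ := hcong ℓ ℓ.2 hℓ
    obtain ⟨w, hw⟩ := hv (CuspForm.heckeAlgebra.T ℓ.2 hℓM (Set.notMem_empty _) -
        (a ℓ : HK.TFull M)) (by
      rw [map_sub, map_intCast, Eigen.eigenCharInt_T, show Eigen.intCoeff hf ℓ = b from
        Subtype.ext (by rw [Eigen.coe_intCoeff, hb])]
      exact hbm)
    rw [map_sub, map_intCast, LR.heckeAct_T hℓM, LinearMap.sub_apply, sub_eq_iff_eq_add] at hw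
    rw [Module.End.intCast_apply] at hw
    let wT : HK.jTor M p 1 :=
      ⟨heckeOperatorBar M ℓ (e.symm c), HK.TorsionCoords.hecke_mem_jTor ℓ (e.symm c).2⟩
    have h1 := (HK.tateCoords M p).hecke 1 ℓ (e.symm c) wT rfl
    have h2 : e wT = a ℓ • c := by
      rw [show e wT = _ from h1, show e (e.symm c) = c from e.apply_symm_apply c]
      funext i
      have h3 : (HK.heckeMatZ M ℓ *ᵥ HK.hCoord M ℤ v) i =
          (p : ℤ) * HK.hCoord M ℤ w i + a ℓ * HK.hCoord M ℤ v i := by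
        refine (congrFun (hMatrix_mulVec M ℤ _ v) i).trans ?_
        rw [hw, map_add, map_zsmul, map_zsmul]
        simp
      have h4 := congrArg (Int.cast : ℤ → ZMod (p ^ 1)) h3
      rw [Int.cast_add, Int.cast_mul, Int.cast_mul, Int.cast_natCast,
        show ((p : ℕ) : ZMod (p ^ 1)) = 0 by
          rw [ZMod.natCast_eq_zero_iff, pow_one], zero_mul, zero_add] at h4
      rw [Pi.smul_apply, zsmul_eq_mul, ← h4]
      exact (RingHom.map_mulVec (Int.castRingHom (ZMod (p ^ 1))) _ _ i).symm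
    have h5 : wT = a ℓ • e.symm c := by
      rw [← map_zsmul e.symm, ← h2, AddEquiv.symm_apply_apply]
    exact congrArg Subtype.val h5
  · have hc : c = 0 := by
      rw [← e.apply_symm_apply c, show e.symm c = 0 from Subtype.ext h0, map_zero]
    have hdiv : ∀ i, (p : ℤ) ∣ HK.hCoord M ℤ v i := fun i => by
      have := congrFun hc i
      simp only [c, Pi.zero_apply, ZMod.intCast_zmod_eq_zero_iff_dvd, pow_one] at this
      exact this
    choose d hd using hdiv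
    refine hv' 1 (by rw [map_one]; exact fun h => hmax.ne_top ((Ideal.eq_top_iff_one _).mpr h))
      ⟨(HK.hCoord M ℤ).symm d, ?_⟩
    rw [map_one, Module.End.one_apply]
    refine (HK.hCoord M ℤ).injective (funext fun i => ?_)
    rw [map_zsmul, LinearEquiv.apply_symm_apply, hd i, Pi.smul_apply, smul_eq_mul]

/-- Operators having `c` as an eigenvector give a character. -/
theorem exists_eigen_ringHom {T F ι : Type*} [CommRing T] [Field F] [Fintype ι] [DecidableEq ι]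
    (ρ : T →+* Matrix ι ι F) {c : ι → F} (hc : c ≠ 0) (h : ∀ t, ∃ b : F, ρ t *ᵥ c = b • c) :
    ∃ θ : T →+* F, ∀ t, ρ t *ᵥ c = θ t • c := by
  choose θ₀ hθ₀ using h
  obtain ⟨i₀, hi₀⟩ : ∃ i, c i ≠ 0 := Function.ne_iff.mp hc
  have huniq : ∀ x y : F, x • c = y • c → x = y := fun x y h =>
    mul_right_cancel₀ hi₀ (congrFun h i₀)
  exact ⟨{
    toFun := θ₀
    map_one' := huniq _ _ (by rw [← hθ₀, map_one, Matrix.one_mulVec, one_smul])
    map_mul' := fun s t => huniq _ _ (by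
      rw [← hθ₀, map_mul, ← Matrix.mulVec_mulVec, hθ₀ t, Matrix.mulVec_smul, hθ₀ s, smul_smul,
        mul_comm])
    map_zero' := huniq _ _ (by rw [← hθ₀, map_zero, Matrix.zero_mulVec, zero_smul])
    map_add' := fun s t => huniq _ _ (by
      rw [← hθ₀, map_add, Matrix.add_mulVec, hθ₀, hθ₀, add_smul]) }, hθ₀⟩

/-- An adjoined algebra keeps an eigenvector of its generators. -/
theorem exists_smul_inclusion {F ι B : Type*} [Field F] [Fintype ι] [DecidableEq ι] [Ring B]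
    [Algebra ℤ B] {G : Set B} {A : Subalgebra ℤ B} (hle : Algebra.adjoin ℤ G ≤ A)
    (ρ : ↥A →+* Matrix ι ι F) (c : ι → F)
    (hG : ∀ (x : B) (hx : x ∈ G),
      ∃ b : F, ρ (Subalgebra.inclusion hle ⟨x, Algebra.subset_adjoin hx⟩) *ᵥ c = b • c)
    (t : ↥(Algebra.adjoin ℤ G)) : ∃ b : F, ρ (Subalgebra.inclusion hle t) *ᵥ c = b • c := by
  obtain ⟨y, hy⟩ := t
  induction hy using Algebra.adjoin_induction with
  | mem x hx => exact hG x hx
  | algebraMap r =>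
    refine ⟨r, ?_⟩
    have e : Subalgebra.inclusion hle ⟨algebraMap ℤ B r, Subalgebra.algebraMap_mem _ r⟩ =
        (r : ↥A) := by
      rw [show (⟨algebraMap ℤ B r, Subalgebra.algebraMap_mem _ r⟩ : ↥(Algebra.adjoin ℤ G)) =
        (r : ↥(Algebra.adjoin ℤ G)) from Subtype.ext (by simp), map_intCast]
    rw [e, map_intCast, ← zsmul_one, Matrix.smul_mulVec, Matrix.one_mulVec,
      Int.cast_smul_eq_zsmul]
  | add x y hx hy ihx ihy =>
    obtain ⟨b, hb⟩ := ihx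
    obtain ⟨d, hd⟩ := ihy
    refine ⟨b + d, ?_⟩
    rw [show (⟨x + y, _⟩ : ↥(Algebra.adjoin ℤ G)) = ⟨x, hx⟩ + ⟨y, hy⟩ from rfl, map_add, map_add,
      Matrix.add_mulVec, hb, hd, add_smul]
  | mul x y hx hy ihx ihy =>
    obtain ⟨b, hb⟩ := ihx
    obtain ⟨d, hd⟩ := ihy
    refine ⟨d * b, ?_⟩
    rw [show (⟨x * y, _⟩ : ↥(Algebra.adjoin ℤ G)) = ⟨x, hx⟩ * ⟨y, hy⟩ from rfl, map_mul, map_mul,
      ← Matrix.mulVec_mulVec, hd, Matrix.mulVec_smul, hb, smul_smul]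

/-- The Hecke operators modulo `p`, as matrices. -/
def repMod (M p : ℕ) [NeZero M] :
    HK.TFull M →+* Matrix (Fin (MF.ParHom.parRank M)) (Fin (MF.ParHom.parRank M)) (ZMod (p ^ 1)) :=
  ((Int.castRingHom (ZMod (p ^ 1))).mapMatrix).comp (HK.heckeRep M)

omit [Fact p.Prime] in
/-- The coordinates of an eigen point are an eigenvector of `heckeFormsGen`. -/
theorem repMod_mulVec_coord (D : HK.TorsionCoords M p) {P : JZero M} (hP : P ∈ eigenGroup M p a S) (z : HK.jTor M p 1)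
    (hz : (z : JZero M) = P) (ℓ : Nat.Primes) (hℓS : (ℓ : ℕ) ∉ S) :
    repMod M p (CuspForm.heckeFormsGen M 2 ℓ) *ᵥ D.e 1 z =
      (a ℓ : ZMod (p ^ 1)) • D.e 1 z := by
  have : Fact (ℓ : ℕ).Prime := ⟨ℓ.2⟩
  let w : HK.jTor M p 1 := ⟨heckeOperatorBar M ℓ z, HK.TorsionCoords.hecke_mem_jTor ℓ z.2⟩
  have h1 := D.hecke 1 ℓ z w rfl
  have h2 : w = a ℓ • z := Subtype.ext (by rw [AddSubgroup.coe_zsmul, hz]; exact hz ▸ hP.2 ℓ hℓS)
  rw [repMod, RingHom.comp_apply, RingHom.mapMatrix_apply, HK.heckeRep_heckeFormsGen,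
    Int.cast_smul_eq_zsmul, ← map_zsmul (D.e 1), ← h2]
  exact h1.symm

/-- A nonzero eigen point gives a residual point of the Hecke algebra. -/
theorem exists_ringHom_of_mem_eigenGroup (D : HK.TorsionCoords M p) (hS : M.primeFactors ⊆ S) {P : JZero M}
    (hP : P ∈ eigenGroup M p a S) (h0 : P ≠ 0) :
    ∃ θ : ↥(CuspForm.heckeAlgebra M 2 (↑S : Set ℕ)) →+* ZMod (p ^ 1),
      ∀ (ℓ : ℕ) (hℓ : ℓ.Prime) (hℓM : ¬ ℓ ∣ M) (hℓS : ℓ ∉ (↑S : Set ℕ)),
        θ (CuspForm.heckeAlgebra.T hℓ hℓM hℓS) = (a ℓ : ZMod (p ^ 1)) := by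
  have : Fact (p ^ 1).Prime := ⟨by rw [pow_one]; exact Fact.out⟩
  let z : HK.jTor M p 1 := ⟨P, (congrArg (· • P) (pow_one p)).trans hP.1⟩
  have hc : D.e 1 z ≠ 0 := fun h =>
    h0 (congrArg Subtype.val ((D.e 1).map_eq_zero_iff.mp h))
  have hle := CuspForm.heckeAlgebra_mono (N := M) (k := 2) (Set.empty_subset (↑S : Set ℕ))
  let inc : ↥(CuspForm.heckeAlgebra M 2 (↑S : Set ℕ)) →+* HK.TFull M :=
    (Subalgebra.inclusion hle).toRingHom
  have hgen : ∀ (ℓ : ℕ) (hℓ : ℓ.Prime) (hℓM : ¬ ℓ ∣ M) (hℓS : ℓ ∉ (↑S : Set ℕ)),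
      inc (CuspForm.heckeAlgebra.T hℓ hℓM hℓS) = CuspForm.heckeFormsGen M 2 ⟨ℓ, hℓ⟩ := by
    intro ℓ hℓ hℓM hℓS
    rw [CuspForm.heckeFormsGen_of_not_dvd (ℓ := ⟨ℓ, hℓ⟩) hℓM]
    exact Subtype.ext rfl
  have hex : ∀ t, ∃ b : ZMod (p ^ 1),
      (repMod M p).comp inc t *ᵥ D.e 1 z = b • D.e 1 z := fun t =>
    exists_smul_inclusion hle (repMod M p) _ (fun x hx => by
      rcases id hx with ⟨ℓ, hℓ, hℓM, hℓS, rfl⟩ | ⟨q, hqM, hq, hqS, rfl⟩
      · exact ⟨_, (congrArg (fun u => repMod M p u *ᵥ D.e 1 z) (hgen ℓ hℓ hℓM hℓS)).trans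
          (repMod_mulVec_coord D hP z rfl ⟨ℓ, hℓ⟩ hℓS)⟩
      · exact absurd (hS (Nat.mem_primeFactors.mpr ⟨hq, hqM, NeZero.ne M⟩)) hqS) t
  obtain ⟨θ, hθ⟩ := exists_eigen_ringHom _ hc hex
  refine ⟨θ, fun ℓ hℓ hℓM hℓS => ?_⟩
  have h := hθ (CuspForm.heckeAlgebra.T hℓ hℓM hℓS)
  rw [RingHom.comp_apply, hgen ℓ hℓ hℓM hℓS, repMod_mulVec_coord D hP z rfl ⟨ℓ, hℓ⟩ hℓS] at h
  obtain ⟨i₀, hi₀⟩ := Function.ne_iff.mp hc
  exact (mul_right_cancel₀ hi₀ (congrFun h i₀)).symm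

omit [Fact p.Prime] in
/-- A residual point of the Hecke algebra is that of an eigenform. -/
theorem exists_eigenform_of_ringHom {k : Type*} [Field k] (hpk : (p : k) = 0)
    (hS : M.primeFactors ⊆ S)
    (θ : ↥(CuspForm.heckeAlgebra M 2 (↑S : Set ℕ)) →+* k) (hsurj : Function.Surjective θ)
    (hθT : ∀ (ℓ : ℕ) (hℓ : ℓ.Prime) (hℓM : ¬ ℓ ∣ M) (hℓS : ℓ ∉ (↑S : Set ℕ)),
        θ (CuspForm.heckeAlgebra.T hℓ hℓM hℓS) = (a ℓ : k)) :
    ∃ (f : CuspForm (Gamma0 M) 2) (𝔪 : Ideal (integralClosure ℤ ℂ)),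
      f.IsNormalizedEigenform ∧ 𝔪.IsMaximal ∧ (p : integralClosure ℤ ℂ) ∈ 𝔪 ∧
      ∀ ℓ : ℕ, ℓ.Prime → ℓ ∉ S →
        ∃ c : integralClosure ℤ ℂ, (c : ℂ) = qCoeff f ℓ ∧
          c - (a ℓ : integralClosure ℤ ℂ) ∈ 𝔪 := by
  have hint := MF.IntStruct.hasIntegralStructure M 2
  let T := ↥(CuspForm.heckeAlgebra M 2 (↑S : Set ℕ))
  have hθker : (RingHom.ker θ).IsMaximal := RingHom.ker_isMaximal_of_surjective θ hsurj
  -- a point of characteristic zero below `θ`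
  obtain ⟨𝔮, h𝔮, h𝔮θ⟩ :=
    Ideal.exists_minimalPrimes_le (bot_le : (⊥ : Ideal T) ≤ RingHom.ker θ)
  have h𝔮p : 𝔮.IsPrime := h𝔮.1.1
  have := Eigen.moduleFinite_heckeAlgebra hint (↑S : Set ℕ)
  have := Eigen.moduleFree_heckeAlgebra hint (↑S : Set ℕ)
  have : CharZero (T ⧸ 𝔮) := by
    refine charZero_of_inj_zero fun n hn => ?_
    by_contra hne
    rw [← map_natCast (Ideal.Quotient.mk 𝔮), Ideal.Quotient.eq_zero_iff_mem] at hn
    refine Set.disjoint_left.mp (Ideal.disjoint_nonZeroDivisors_of_mem_minimalPrimes h𝔮) hn ?_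
    refine mem_nonZeroDivisors_iff_right.mpr fun x hx => ?_
    have h' : (n : ℤ) • x = 0 := by rwa [natCast_zsmul, nsmul_eq_mul, mul_comm]
    exact (smul_eq_zero.mp h').resolve_left (by exact_mod_cast hne)
  obtain ⟨f, hf, hker⟩ := Eigen.exists_eigenform_ker_eq hint (Ideal.Quotient.mk 𝔮)
  rw [Ideal.mk_ker] at hker
  have := Eigen.moduleFinite_heckeAlgebra hint (∅ : Set ℕ)
  let g := Eigen.eigenCharInt hf (↑S : Set ℕ)
  letI : Algebra T (integralClosure ℤ ℂ) := g.toAlgebra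
  have : IsScalarTower ℤ T (integralClosure ℤ ℂ) :=
    IsScalarTower.of_algebraMap_eq fun n => by simp
  have : Algebra.IsIntegral T (integralClosure ℤ ℂ) := Algebra.IsIntegral.tower_top ℤ
  obtain ⟨𝔪, hmax, hcomap⟩ := Ideal.exists_ideal_over_maximal_of_isIntegral
    (S := integralClosure ℤ ℂ) (RingHom.ker θ) (fun t ht => h𝔮θ (hker.le (by
      rw [RingHom.mem_ker] at ht ⊢
      rw [← Eigen.coe_eigenCharInt hf (↑S : Set ℕ) t]
      exact congrArg Subtype.val ht)))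
  have hg : ∀ t, θ t = 0 → g t ∈ 𝔪 := fun t ht => by
    have : t ∈ Ideal.comap (algebraMap T (integralClosure ℤ ℂ)) 𝔪 := hcomap.symm ▸ ht
    exact this
  refine ⟨f, 𝔪, hf, hmax, ?_, fun ℓ hℓ hℓS => ⟨Eigen.intCoeff hf ℓ, rfl, ?_⟩⟩
  · have := hg (p : T) (by
      rw [map_natCast, hpk])
    rwa [map_natCast] at this
  · have hℓM : ¬ ℓ ∣ M := fun hd => hℓS (hS (Nat.mem_primeFactors.mpr ⟨hℓ, hd, NeZero.ne M⟩))
    have hℓS' : ℓ ∉ (↑S : Set ℕ) := by simpa using hℓS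
    have := hg (CuspForm.heckeAlgebra.T hℓ hℓM hℓS' - (a ℓ : T)) (by
      rw [map_sub, map_intCast, hθT, sub_self])
    rwa [map_sub, map_intCast, Eigen.eigenCharInt_T] at this

/-- A nonzero eigen point gives an eigenform congruent to `a`. -/
theorem exists_eigenform_of_mem_eigenGroup (hS : M.primeFactors ⊆ S) {P : JZero M}
    (hP : P ∈ eigenGroup M p a S) (h0 : P ≠ 0) :
    ∃ (f : CuspForm (Gamma0 M) 2) (𝔪 : Ideal (integralClosure ℤ ℂ)),
      f.IsNormalizedEigenform ∧ 𝔪.IsMaximal ∧ (p : integralClosure ℤ ℂ) ∈ 𝔪 ∧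
      ∀ ℓ : ℕ, ℓ.Prime → ℓ ∉ S →
        ∃ c : integralClosure ℤ ℂ, (c : ℂ) = qCoeff f ℓ ∧
          c - (a ℓ : integralClosure ℤ ℂ) ∈ 𝔪 := by
  have : Fact (p ^ 1).Prime := ⟨by rw [pow_one]; exact Fact.out⟩
  obtain ⟨θ, hθ⟩ := exists_ringHom_of_mem_eigenGroup (HK.tateCoords M p) hS hP h0
  exact exists_eigenform_of_ringHom (by rw [ZMod.natCast_eq_zero_iff, pow_one]) hS θ
    (fun x => ⟨(x.val : ↥(CuspForm.heckeAlgebra M 2 (↑S : Set ℕ))), by simp⟩) hθ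

end Fermat.Agent.R59.Lower
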