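import Fermat.Agent.R59.Lower.Eigen
import Fermat.Agent.CondLevel.Compare
import Fermat.Agent.RED.Specialization.OfLift
import Fermat.Agent.RED.X0Lift

/-!
# The Galois action on the eigen points of a semistable residual system

* every element satisfies the characteristic polynomial of `E[p]`;
* inertia at a semistable `q ≠ p` fixes a nonzero eigen point;
* no nonzero eigen point spans a Galois stable line when `E[p]` is irreducible.
-/

set_option autoImplicit false
set_option linter.style.haveILetI false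

noncomputable section

open ModularCurve
open Fermat.Agent.CondLevel

namespace Fermat.Agent.R59.Lower

local notation "GQ" => AlgebraicClosure ℚ ≃ₐ[ℚ] AlgebraicClosure ℚ

/-- The exceptional primes for the system of `W` at level `M` modulo `p`. -/
def badSet (W : WeierstrassCurve ℤ) (M p : ℕ) : Finset ℕ :=
  insert p (M.primeFactors ∪ W.Δ.natAbs.primeFactors)

theorem primeFactors_subset_badSet (W : WeierstrassCurve ℤ) (M p : ℕ) :
    M.primeFactors ⊆ badSet W M p :=
  fun _ h => Finset.mem_insert_of_mem (Finset.mem_union_left _ h)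

theorem notMem_badSet {W : WeierstrassCurve ℤ} (hΔ : W.Δ ≠ 0) {M p ℓ : ℕ} [NeZero M]
    (hℓ : ℓ.Prime) (h : ℓ ∉ badSet W M p) :
    ℓ ≠ p ∧ ¬ ℓ ∣ M ∧ W.IsGoodPrimeFor ℓ := by
  rw [badSet, Finset.mem_insert, Finset.mem_union, not_or, not_or, Nat.mem_primeFactors,
    Nat.mem_primeFactors] at h
  exact ⟨h.1, fun hd => h.2.1 ⟨hℓ, hd, NeZero.ne M⟩,
    fun hd => h.2.2 ⟨hℓ, Int.natCast_dvd.mp hd, Int.natAbs_ne_zero.mpr hΔ⟩⟩

/-- `Frob² - T_ℓ Frob + ℓ = 0` on `J₀(N)[p^∞]` for `ℓ ≥ 5` prime to `N p`. -/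
theorem torsion_quadratic_of_five_le (N p : ℕ) [NeZero N] [Fact p.Prime] {ℓ : ℕ} (hℓ : ℓ.Prime)
    (h5 : 5 ≤ ℓ) (hℓN : ¬ ℓ ∣ N) (hℓp : ℓ ≠ p) {A : ValuationSubring (AlgebraicClosure ℚ)}
    (hA : A.LiesOverPrime ℓ) {σ : GQ} (hσ : A.IsFrobeniusAt σ ℓ) {x : JZero N} (hx : p • x = 0) :
    σ • σ • x - heckeOperatorBar N ⟨ℓ, hℓ⟩ (σ • x) + ℓ • x = 0 := by
  have hp : p.Prime := Fact.out
  have hcomm := HK.Corr.heckeOperatorsCommuteBar N
  have hl := RED.x0Lift_of_five_le hℓ hℓN hA h5
  letI := heckeModuleBar N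
  obtain ⟨J', _, _, sp, F, hsp, hrel⟩ := RED.Spec.exists_specialization_jZero hℓ hℓN hA hl p hcomm
    (fun y ⟨n, hn⟩ hy => RED.eq_zero_of_reductionModL_eq_zero hℓ hℓN hA hl
      (RED.reductionInputsModL hℓ hℓN hA hl)
      (fun h => hℓp ((Nat.prime_dvd_prime_iff_eq hℓ hp).mp (hℓ.dvd_of_dvd_pow h))) y hn hy)
    (HK.Corr.smulCommClass_heckeModuleBar N)
  have hmem : ∀ (τ : GQ) {y : JZero N}, p • y = 0 → p • (τ • y) = 0 := fun τ y hy =>
    ((map_nsmul (DistribSMul.toAddMonoidHom (JZero N) τ) p y).symm.trans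
      (congrArg (τ • ·) hy)).trans (smul_zero (A := JZero N) τ)
  refine hsp.injective_torsion _ ⟨1, ?_⟩ ?_
  · rw [pow_one, nsmul_add, nsmul_sub, ← map_nsmul, hmem σ (hmem σ hx), hmem σ hx, map_zero,
      ← mul_nsmul, mul_comm, mul_nsmul, hx, nsmul_zero, sub_zero, add_zero]
  · have hT := fun y : JZero N =>
      congrArg sp (heckeModuleBar_heckeGen_smul hcomm (⟨ℓ, hℓ⟩ : Nat.Primes) y)
    rw [map_add, map_sub, map_nsmul, hsp.frobenius_comm σ hσ, hsp.frobenius_comm σ hσ]
    have h := hrel (sp x)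
    rw [← hsp.frobenius_comm σ hσ x, ← hsp.hecke_comm, hT, hsp.frobenius_comm σ hσ x] at h
    exact h

variable {M p : ℕ} [NeZero M] {a : ℕ → ℤ} {S : Finset ℕ}

theorem smul_mem_eigenGroup (σ : GQ) {P : JZero M} (hP : P ∈ eigenGroup M p a S) :
    σ • P ∈ eigenGroup M p a S := by
  refine ⟨((map_nsmul (DistribSMul.toAddMonoidHom (JZero M) σ) p P).symm.trans
    (congrArg (σ • ·) hP.1)).trans (smul_zero (A := JZero M) σ), fun ℓ hℓ => ?_⟩
  rw [HK.Corr.heckeOperatorBar_galois_smul M σ ℓ P, hP.2 ℓ hℓ]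
  exact map_zsmul (DistribSMul.toAddMonoidHom (JZero M) σ) _ P

variable (M p a S)

/-- The Galois action on the eigen points. -/
def galV : GQ →* Module.End ℤ (eigenGroup M p a S) where
  toFun σ := (AddMonoidHom.mk' (fun P : eigenGroup M p a S =>
      (⟨σ • (P : JZero M), smul_mem_eigenGroup σ P.2⟩ : eigenGroup M p a S))
    fun P Q => Subtype.ext (smul_add σ (P : JZero M) (Q : JZero M))).toIntLinearMap
  map_one' := LinearMap.ext fun P => Subtype.ext (one_smul GQ (P : JZero M))
  map_mul' σ τ := LinearMap.ext fun P => Subtype.ext (mul_smul σ τ (P : JZero M))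

variable {M p a S}

theorem galV_apply (σ : GQ) (P : eigenGroup M p a S) :
    (galV M p a S σ P : JZero M) = σ • (P : JZero M) := rfl

theorem nsmul_eq_zero_eigen (P : eigenGroup M p a S) : p • P = 0 :=
  Subtype.ext ((AddSubmonoidClass.coe_nsmul P p).trans P.2.1)

theorem sub_one_sq_eq_zero {R : Type*} [Ring R] {f : R}
    (h : f ^ 2 = (2 : ℤ) • f - (1 : ℤ) • 1) : (f - 1) ^ 2 = 0 := by
  rw [sq] at h ⊢
  rw [sub_mul, mul_sub, mul_sub, one_mul, mul_one, h, one_smul, two_smul, one_mul]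
  abel

/-- A unipotent action of exponent two on a nonzero finite `p`-group fixes a nonzero element. -/
theorem exists_fixed_of_sub_one_sq {G V : Type*} [Group G] [AddCommGroup V] [Finite V] {p : ℕ}
    [Fact p.Prime] (hV : ∀ v : V, p • v = 0) {v₀ : V} (h0 : v₀ ≠ 0) (f : G →* Module.End ℤ V)
    (h : ∀ g, (f g - 1) ^ 2 = 0) : ∃ v : V, v ≠ 0 ∧ ∀ g, f g v = v := by
  have : Finite (Module.End ℤ V) := Finite.of_injective (fun f : Module.End ℤ V => (f : V → V))
    DFunLike.coe_injective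
  have : Finite (Module.End ℤ V)ˣ := Finite.of_injective _ Units.val_injective
  have hpg : IsPGroup p f.toHomUnits.range := by
    rintro ⟨_, σ, rfl⟩
    refine ⟨1, Subtype.ext (Units.ext ?_)⟩
    rw [pow_one, SubmonoidClass.coe_pow, Units.val_pow_eq_pow_val, MonoidHom.coe_toHomUnits,
      OneMemClass.coe_one, Units.val_one]
    set N := f σ - 1 with hN
    have hN2 : N * N = 0 := by rw [← sq]; exact h σ
    have hk : ∀ k : ℕ, (1 + N) ^ k = 1 + k • N := by
      intro k
      induction k with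
      | zero => simp
      | succ k ih =>
        rw [pow_succ, ih, mul_add, mul_one, add_mul, one_mul, smul_mul_assoc, hN2, smul_zero,
          add_zero, succ_nsmul, add_assoc]
    rw [show f σ = 1 + N by rw [hN]; abel, hk,
      show p • N = 0 from LinearMap.ext fun v => by
        rw [LinearMap.smul_apply, LinearMap.zero_apply]; exact hV _, add_zero]
  have hcard : p ∣ Nat.card V := by
    rw [← addOrderOf_eq_prime (hV v₀) h0]
    exact addOrderOf_dvd_natCard _
  obtain ⟨v, hv, hne⟩ := hpg.exists_fixed_point_of_prime_dvd_card_of_fixed_point V hcard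
    (a := (0 : V)) (fun g => by rw [Subgroup.smul_def, Units.smul_def]; exact map_zero _)
  exact ⟨v, fun h => hne h.symm, fun g => hv ⟨f.toHomUnits g, ⟨_, rfl⟩⟩⟩

theorem galV_finiteLevel [Fact p.Prime] : GaloisFactorsThroughFiniteLevel (galV M p a S) := by
  obtain ⟨L, hL, h⟩ := HK.torsionFiniteLevel M p 1
  exact ⟨L, hL, fun σ hσ => LinearMap.ext fun P => Subtype.ext
    (h σ hσ _ ((congrArg (· • (P : JZero M)) (pow_one p)).trans P.2.1))⟩

/-- The quadratic relation of a power, with coefficients modulo `p`. -/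
theorem pow_quadratic_congr {V : Type} [AddCommGroup V] {p : ℕ} (hV : ∀ v : V, p • v = 0)
    {f : Module.End ℤ V} {t₀ d₀ : ℤ} (hf : f ^ 2 = t₀ • f - d₀ • 1) (k : ℕ) {t d : ℤ}
    (ht : (t : ZMod p) = (powCoeff (t₀ : ZMod p) (d₀ : ZMod p) k).1 * (t₀ : ZMod p) +
      2 * (powCoeff (t₀ : ZMod p) (d₀ : ZMod p) k).2)
    (hd : (d : ZMod p) = (d₀ : ZMod p) ^ k) :
    (f ^ k) ^ 2 = t • f ^ k - d • 1 := by
  have hc : powCoeff (t₀ : ZMod p) (d₀ : ZMod p) k =
      (((powCoeff t₀ d₀ k).1 : ZMod p), ((powCoeff t₀ d₀ k).2 : ZMod p)) := by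
    simpa using map_powCoeff (Int.castRingHom (ZMod p)) t₀ d₀ k
  have key : ∀ {x y : ℤ}, (x : ZMod p) = (y : ZMod p) → ∀ v : V, x • v = y • v := by
    intro x y h v
    obtain ⟨j, hj⟩ := (ZMod.intCast_eq_intCast_iff_dvd_sub x y p).mp h
    rw [show y = x + j * (p : ℤ) by linarith, add_zsmul, mul_zsmul, natCast_zsmul, hV, zsmul_zero,
      add_zero]
  rw [pow_quadratic hf k]
  refine LinearMap.ext fun v => ?_
  simp only [LinearMap.sub_apply, LinearMap.smul_apply, Module.End.one_apply]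
  congr 1
  · exact key (by push_cast; rw [ht, hc]) _
  · exact key (by push_cast; rw [hd]) _

variable (W : WeierstrassCurve ℤ) (hΔ : W.Δ ≠ 0)

set_option maxHeartbeats 800000 in
-- the Galois action on the subgroup unfolds slowly
include hΔ in
/-- Every element satisfies the characteristic polynomial of its action on `E[p]`. -/
theorem galV_quadratic [Fact p.Prime] (σ : GQ) (t d : ℤ)
    (ht : (t : ZMod p) = LinearMap.trace (ZMod p) (Tors W p) (rhoTors W p σ))
    (hd : (d : ZMod p) = LinearMap.det (rhoTors W p σ)) :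
    galV M p W.apOfModel (badSet W M p) σ ^ 2 =
      t • galV M p W.apOfModel (badSet W M p) σ - d • 1 := by
  have hp : p.Prime := Fact.out
  refine forall_of_frobenius_pow (galV_finiteLevel (M := M) (p := p) (a := W.apOfModel)
      (S := badSet W M p)) (rhoTors_finiteLevel W hΔ hp.ne_zero)
    (fun f g => ∀ t d : ℤ, (t : ZMod p) = LinearMap.trace (ZMod p) (Tors W p) g →
      (d : ZMod p) = LinearMap.det g → f ^ 2 = t • f - d • 1)
    (badSet W M p ∪ {2, 3}) ?_ σ t d ht hd
  intro ℓ hℓ hℓS A hA τ hτ k t d ht hd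
  rw [Finset.mem_union, not_or] at hℓS
  obtain ⟨hℓp, hℓM, hgood⟩ := notMem_badSet hΔ hℓ hℓS.1
  have h5 : 5 ≤ ℓ := by
    have := hℓ.two_le
    have h23 := hℓS.2
    simp only [Finset.mem_insert, Finset.mem_singleton, not_or] at h23
    rcases eq_or_ne ℓ 4 with rfl | h4
    · norm_num at hℓ
    · omega
  have hf : galV M p W.apOfModel (badSet W M p) τ ^ 2 =
      W.apOfModel ℓ • galV M p W.apOfModel (badSet W M p) τ - (ℓ : ℤ) • 1 := by
    refine LinearMap.ext fun P => Subtype.ext ?_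
    have h := torsion_quadratic_of_five_le M p hℓ h5 hℓM hℓp hA hτ P.2.1
    rw [(smul_mem_eigenGroup τ P.2).2 ⟨ℓ, hℓ⟩ hℓS.1] at h
    simp only [sq, Module.End.mul_apply, LinearMap.sub_apply, LinearMap.smul_apply,
      Module.End.one_apply, AddSubgroupClass.coe_sub, AddSubgroupClass.coe_zsmul, galV_apply]
    rw [natCast_zsmul, ← sub_eq_zero, ← h]
    abel
  obtain ⟨htr, hdet⟩ := frobenius_trace_det W hΔ hℓ hℓp hgood hA hτ
  have := moduleFinite_tors W hΔ p
  rw [map_pow, trace_pow_eq (finrank_tors W hΔ p), htr, hdet] at ht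
  rw [map_pow, map_pow, hdet] at hd
  rw [map_pow]
  exact pow_quadratic_congr nsmul_eq_zero_eigen hf k (by rw [Int.cast_natCast]; exact ht)
    (by rw [Int.cast_natCast]; exact hd)

include hΔ in
/-- Inertia at a semistable `q ≠ p` satisfies `(σ - 1)² = 0` on the eigen points. -/
theorem galV_inertia [Fact p.Prime] {q : ℕ} (hq : q.Prime) (hqp : q ≠ p)
    (hss : (q : ℤ) ∣ W.Δ → ¬ (q : ℤ) ∣ W.c₄) {A : ValuationSubring (AlgebraicClosure ℚ)}
    (hA : A.LiesOverPrime q) {σ : GQ} (hσ : σ ∈ A.inertiaSubgroupIn ℚ) :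
    (galV M p W.apOfModel (badSet W M p) σ - 1) ^ 2 = 0 := by
  have hp : p.Prime := Fact.out
  have hqp' : ¬ q ∣ p := fun h => hqp ((Nat.prime_dvd_prime_iff_eq hq hp).mp h)
  have := moduleFinite_tors W hΔ p
  have hdet : LinearMap.det (rhoTors W p σ) = 1 := by
    rw [det_rhoTors W hΔ, cycChar_inertia p hq hqp' hA hσ]
  have hu := inertia_unipotent W hΔ hq hss hqp' hA hσ
  have h2 := sq_eq_of_finrank_two (finrank_tors W hΔ p) (rhoTors W p σ)
  rw [hdet, one_smul] at h2
  have hzero : ((2 : ZMod p) - LinearMap.trace (ZMod p) (Tors W p) (rhoTors W p σ)) •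
      rhoTors W p σ = 0 := by
    rw [sub_smul, sub_eq_zero]
    exact sub_left_injective (b := 1) (hu.symm.trans h2)
  have htr : (2 : ZMod p) - LinearMap.trace (ZMod p) (Tors W p) (rhoTors W p σ) = 0 := by
    refine eq_zero_of_smul_eq_zero W hΔ hp.ne_zero _ fun x => ?_
    have hinv : rhoTors W p σ * rhoTors W p σ⁻¹ = 1 := by
      rw [← map_mul, mul_inv_cancel, map_one]
    have h := congrArg (fun f => f * rhoTors W p σ⁻¹) hzero
    simp only [smul_mul_assoc, hinv, zero_mul] at h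
    simpa using LinearMap.congr_fun h x
  exact sub_one_sq_eq_zero (galV_quadratic W hΔ (M := M) σ 2 1
    (by push_cast; exact sub_eq_zero.mp htr) (by push_cast; exact hdet.symm))

include hΔ in
/-- Inertia at a semistable `q ≠ p` fixes a nonzero eigen point. -/
theorem exists_fixed_ne_zero [Fact p.Prime] {q : ℕ} (hq : q.Prime) (hqp : q ≠ p)
    (hss : (q : ℤ) ∣ W.Δ → ¬ (q : ℤ) ∣ W.c₄) {A : ValuationSubring (AlgebraicClosure ℚ)}
    (hA : A.LiesOverPrime q) {P₀ : JZero M} (hP₀ : P₀ ∈ eigenGroup M p W.apOfModel (badSet W M p))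
    (h0 : P₀ ≠ 0) :
    ∃ P ∈ eigenGroup M p W.apOfModel (badSet W M p), P ≠ 0 ∧
      ∀ σ ∈ A.inertiaSubgroupIn ℚ, σ • P = P := by
  have := finite_eigenGroup M p W.apOfModel (badSet W M p)
  obtain ⟨P, hP, hfix⟩ := exists_fixed_of_sub_one_sq
    (nsmul_eq_zero_eigen (M := M) (p := p) (a := W.apOfModel) (S := badSet W M p))
    (v₀ := ⟨P₀, hP₀⟩) (fun h => h0 (congrArg Subtype.val h))
    ((galV M p W.apOfModel (badSet W M p)).comp (A.inertiaSubgroupIn ℚ).subtype)
    (fun σ => galV_inertia W hΔ hq hqp hss hA σ.2)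
  exact ⟨P, P.2, fun h => hP (Subtype.ext h), fun σ hσ => congrArg Subtype.val (hfix ⟨σ, hσ⟩)⟩

include hΔ in
/-- A nonzero eigen point does not span a Galois stable line. -/
theorem not_stable_line [Fact p.Prime] (hp2 : p ≠ 2) (hirr : W.ModRepIsIrreducible p) {P : JZero M}
    (hP : P ∈ eigenGroup M p W.apOfModel (badSet W M p)) (h0 : P ≠ 0)
    (h : ∀ σ : GQ, ∃ n : ℤ, σ • P = n • P) : False := by
  have hp : p.Prime := Fact.out
  let V := ↥(eigenGroup M p W.apOfModel (badSet W M p))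
  let Q : V := ⟨P, hP⟩
  have hord : addOrderOf P = p := addOrderOf_eq_prime hP.1 h0
  have hinj : ∀ x y : ℤ, x • P = y • P → (x : ZMod p) = (y : ZMod p) := fun x y hxy => by
    rw [ZMod.intCast_eq_intCast_iff]
    exact (hord ▸ (zsmul_eq_zsmul_iff_modEq).mp hxy :)
  choose n hn using h
  let χ : GQ →* ZMod p :=
    { toFun := fun σ => (n σ : ZMod p)
      map_one' := by
        rw [hinj (n 1) 1 (by rw [← hn, one_smul, one_smul]), Int.cast_one]
      map_mul' := fun σ τ => by
        rw [← Int.cast_mul]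
        refine hinj _ _ ?_
        rw [← hn, mul_smul σ τ P, hn τ]
        refine (map_zsmul (DistribSMul.toAddMonoidHom (JZero M) σ) (n τ) P).trans ?_
        rw [DistribSMul.toAddMonoidHom_apply, hn σ, ← mul_zsmul, mul_comm] }
  have := moduleFinite_tors W hΔ p
  have key : ∀ σ, χ σ * χ σ - LinearMap.trace (ZMod p) (Tors W p) (rhoTors W p σ) * χ σ +
      LinearMap.det (rhoTors W p σ) = 0 := by
    intro σ
    obtain ⟨t, ht⟩ := ZMod.intCast_surjective
      (LinearMap.trace (ZMod p) (Tors W p) (rhoTors W p σ))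
    obtain ⟨d, hd⟩ := ZMod.intCast_surjective (LinearMap.det (rhoTors W p σ))
    have h1 := congrArg (fun f : Module.End ℤ V => ((f Q : V) : JZero M))
      (galV_quadratic W hΔ (M := M) σ t d ht hd)
    simp only [sq, Module.End.mul_apply, LinearMap.sub_apply, LinearMap.smul_apply,
      Module.End.one_apply, AddSubgroupClass.coe_sub, AddSubgroupClass.coe_zsmul] at h1
    change σ • σ • P = t • σ • P - d • P at h1
    rw [hn, show σ • (n σ • P) = n σ • σ • P from
      map_zsmul (DistribSMul.toAddMonoidHom (JZero M) σ) (n σ) P, hn, ← mul_zsmul, ← mul_zsmul] at h1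
    have h2 := hinj _ _ ((h1.trans (sub_eq_add_neg _ _)).trans (sub_zsmul P (t * n σ) d).symm)
    push_cast at h2
    rw [← ht, ← hd]
    show (n σ : ZMod p) * (n σ : ZMod p) - (t : ZMod p) * (n σ : ZMod p) + (d : ZMod p) = 0
    linear_combination h2
  let δ : GQ →* ZMod p := LinearMap.det.comp (rhoTors W p)
  let χ' : GQ →* ZMod p :=
    { toFun := fun σ => δ σ * χ σ⁻¹
      map_one' := by rw [inv_one, map_one, map_one, one_mul]
      map_mul' := fun σ τ => by rw [map_mul, mul_inv_rev, map_mul]; ring }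
  let ρ' : GQ →* Module.End (ZMod p) (Fin 2 → ZMod p) :=
    { toFun := fun σ => Matrix.toLin' (Matrix.diagonal ![χ σ, χ' σ])
      map_one' := by
        rw [map_one, map_one, show (![1, 1] : Fin 2 → ZMod p) = fun _ => 1 from
          funext fun i => by fin_cases i <;> rfl, Matrix.diagonal_one, Matrix.toLin'_one]
        rfl
      map_mul' := fun σ τ => by
        rw [Module.End.mul_eq_comp, ← Matrix.toLin'_mul, Matrix.diagonal_mul_diagonal]
        congr 2
        funext i
        fin_cases i <;> simp }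
  have hinv : ∀ σ, χ σ * χ σ⁻¹ = 1 := fun σ => by rw [← map_mul, mul_inv_cancel, map_one]
  have hres := irreducible_of_trace_det (K := ZMod p)
    (fun h2 => hp2 ((ZMod.ringChar_zmod_n p).symm.trans (by
      by_contra hne
      exact Ring.two_ne_zero (R := ZMod p) hne h2)))
    (RingHom.id _) (finrank_tors W hΔ p) (rhoTors W p)
    (fun N hN => hirr.2 N fun σ x hx => hN σ x hx)
    complexConjugation complexConjugation_mul_self
    (det_rhoTors_involution W hΔ p hp2 complexConjugation_mul_self complexConjugation_ne_one)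
    (Module.finrank_fin_fun (ZMod p)) ρ' (fun σ => ?_) (fun σ => ?_)
    (Submodule.span (ZMod p) {Pi.single 0 1}) ?_
  · rcases hres with h | h
    · exact one_ne_zero (congrFun (Submodule.span_singleton_eq_bot.mp h) 0)
    · have h1 : (Pi.single 1 1 : Fin 2 → ZMod p) ∈ Submodule.span (ZMod p) {Pi.single 0 1} :=
        h ▸ Submodule.mem_top
      obtain ⟨c, hc⟩ := Submodule.mem_span_singleton.mp h1
      simpa using congrFun hc 1
  · show LinearMap.trace (ZMod p) (Fin 2 → ZMod p) (Matrix.toLin' _) = _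
    rw [← Matrix.toLin_eq_toLin', Matrix.trace_toLin_eq, Matrix.trace_diagonal, Fin.sum_univ_two]
    show χ σ + δ σ * χ σ⁻¹ = LinearMap.trace (ZMod p) (Tors W p) (rhoTors W p σ)
    linear_combination (χ σ⁻¹) * key σ -
      (χ σ - LinearMap.trace (ZMod p) (Tors W p) (rhoTors W p σ)) * hinv σ
  · show LinearMap.det (Matrix.toLin' (Matrix.diagonal ![χ σ, χ' σ])) = _
    rw [LinearMap.det_toLin']
    rw [Matrix.det_diagonal, Fin.prod_univ_two]
    show χ σ * (δ σ * χ σ⁻¹) = δ σ
    linear_combination δ σ * hinv σ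
  · intro σ x hx
    obtain ⟨c, rfl⟩ := Submodule.mem_span_singleton.mp hx
    refine Submodule.mem_span_singleton.mpr ⟨c * χ σ, ?_⟩
    show _ = Matrix.toLin' _ _
    rw [map_smul, Matrix.toLin'_apply, Matrix.diagonal_mulVec_single, mul_one]
    funext i
    fin_cases i <;> simp

end Fermat.Agent.R59.Lower
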